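/-
S55 / CFT, LOCAL part, work package LOC-DENS (helper19).

`D_A := (padicPlace q).decompositionSubgroup ℚ` is closed in `G_ℚ`, and the image of the
frozen local Galois group `Gal(PadicAlgCl q / ℚ_[q])` under `localGaloisToGlobal q` is dense in it.
-/
import Mathlib
import Fermat.Prelude.Def_GaloisRep_CompletionBridge

set_option autoImplicit false

namespace Fermat.Agent.CFT.Local

open scoped NNReal Pointwise

local notation "Qbar" => AlgebraicClosure ℚ
local notation "GQ" => (AlgebraicClosure ℚ ≃ₐ[ℚ] AlgebraicClosure ℚ)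

local instance isAlgebraicQbar_dens : Algebra.IsAlgebraic ℚ (AlgebraicClosure ℚ) :=
  AlgebraicClosure.isAlgebraic ℚ
local instance isAlgClosureQbar_dens : IsAlgClosure ℚ (AlgebraicClosure ℚ) :=
  ⟨inferInstance, inferInstance⟩
local instance normalQbar_dens : Normal ℚ (AlgebraicClosure ℚ) :=
  IsAlgClosure.normal ℚ (AlgebraicClosure ℚ)
local instance isGaloisQbar_dens : IsGalois ℚ (AlgebraicClosure ℚ) where

/-! ### Closedness of decomposition groups -/

/-- Evaluation at a point is locally constant on the absolute Galois group. -/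
theorem isOpen_setOf_apply_eq (x y : Qbar) : IsOpen {σ : GQ | σ x = y} := by
  rw [isOpen_iff_mem_nhds]
  intro σ hσ
  have hst : IsOpen (MulAction.stabilizer GQ x : Set GQ) := stabilizer_isOpen_of_isIntegral x
  have h1 : (MulAction.stabilizer GQ x : Set GQ) ∈ nhds (1 : GQ) :=
    hst.mem_nhds (one_mem _)
  have h2 : (fun τ : GQ => σ⁻¹ * τ) ⁻¹' (MulAction.stabilizer GQ x : Set GQ) ∈ nhds σ := by
    apply (continuous_const_mul σ⁻¹).continuousAt.preimage_mem_nhds
    simpa using h1
  refine Filter.mem_of_superset h2 ?_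
  intro τ hτ
  have h3 : (σ⁻¹ * τ) x = x := hτ
  have h4 : σ ((σ⁻¹ * τ) x) = τ x := by
    simp [AlgEquiv.mul_apply]
  show τ x = y
  rw [← h4, h3]
  exact hσ

theorem isOpen_setOf_apply_mem (x : Qbar) (s : Set Qbar) : IsOpen {σ : GQ | σ x ∈ s} := by
  have : {σ : GQ | σ x ∈ s} = ⋃ y ∈ s, {σ : GQ | σ x = y} := by
    ext σ; simp
  rw [this]
  exact isOpen_biUnion fun y _ => isOpen_setOf_apply_eq x y

theorem isClosed_setOf_apply_mem (x : Qbar) (s : Set Qbar) : IsClosed {σ : GQ | σ x ∈ s} := by
  have : {σ : GQ | σ x ∈ s} = {σ : GQ | σ x ∈ sᶜ}ᶜ := by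
    ext σ; simp
  rw [this]
  exact (isOpen_setOf_apply_mem x sᶜ).isClosed_compl

theorem mem_decompositionSubgroup_iff (A : ValuationSubring Qbar) (σ : GQ) :
    σ ∈ A.decompositionSubgroup ℚ ↔ ∀ x : Qbar, σ x ∈ A ↔ x ∈ A := by
  rw [ValuationSubring.decompositionSubgroup, MulAction.mem_stabilizer_iff]
  constructor
  · intro h x
    constructor
    · intro hx
      have : σ x ∈ σ • A := by rw [h]; exact hx
      rw [ValuationSubring.mem_pointwise_smul_iff_inv_smul_mem] at this
      simpa [AlgEquiv.smul_def] using this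
    · intro hx
      rw [← h]
      exact ValuationSubring.smul_mem_pointwise_smul σ x A hx
  · intro h
    apply SetLike.ext
    intro x
    rw [ValuationSubring.mem_pointwise_smul_iff_inv_smul_mem, ← h (σ⁻¹ • x)]
    simp [AlgEquiv.smul_def]

/-- (D1) decomposition subgroups are closed. -/
theorem isClosed_decompositionSubgroup (A : ValuationSubring Qbar) :
    IsClosed (A.decompositionSubgroup ℚ : Set GQ) := by
  have : (A.decompositionSubgroup ℚ : Set GQ) =
      ⋂ x : Qbar, ({σ : GQ | σ x ∈ (A : Set Qbar)} ∩ {_σ : GQ | x ∈ A}) ∪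
        ({σ : GQ | σ x ∈ (A : Set Qbar)ᶜ} ∩ {_σ : GQ | x ∉ A}) := by
    ext σ
    simp only [SetLike.mem_coe, mem_decompositionSubgroup_iff, Set.mem_iInter, Set.mem_union,
      Set.mem_inter_iff, Set.mem_ofPred_eq, Set.mem_compl_iff]
    refine forall_congr' fun x => ?_
    tauto
  rw [this]
  refine isClosed_iInter fun x => ?_
  refine IsClosed.union (IsClosed.inter (isClosed_setOf_apply_mem x _) ?_)
    (IsClosed.inter (isClosed_setOf_apply_mem x _) ?_)
  · by_cases hx : x ∈ A <;> simp [hx]
  · by_cases hx : x ∈ A <;> simp [hx]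

/-! ### Density of the image of the local Galois group -/

variable (q : ℕ) [Fact q.Prime]

local notation "Gq" => (PadicAlgCl q ≃ₐ[ℚ_[q]] PadicAlgCl q)

/-- (D3) An element of `Qbar` is fixed by the image of the local Galois group iff its image in
`PadicAlgCl q` lies in `ℚ_[q]`. -/
theorem fixed_by_local_iff (x : Qbar) :
    (∀ τ : Gq, localGaloisToGlobal q τ x = x) ↔
      padicEmbedding q x ∈ Set.range (algebraMap ℚ_[q] (PadicAlgCl q)) := by
  have : IsGalois ℚ_[q] (PadicAlgCl q) :=
    { to_normal := IsAlgClosure.normal ℚ_[q] (PadicAlgCl q) }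
  rw [InfiniteGalois.mem_range_algebraMap_iff_fixed]
  refine forall_congr' fun τ => ?_
  rw [← padicEmbedding_localGaloisToGlobal]
  exact ⟨fun h => by rw [h], fun h => (padicEmbedding q).injective h⟩

theorem norm_padicEmbedding_le_one_iff {x : Qbar} :
    ‖padicEmbedding q x‖ ≤ 1 ↔ x ∈ padicPlace q := by
  rw [mem_padicPlace_iff, ← NNReal.coe_le_coe]
  simp

/-- Elements of the decomposition group preserve the condition `‖x‖ ≤ q ^ (-n)`. -/
theorem norm_le_of_mem_decomposition {σ : GQ}
    (hσ : σ ∈ (padicPlace q).decompositionSubgroup ℚ) (x : Qbar) (n : ℕ)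
    (hx : ‖padicEmbedding q x‖ ≤ ((q : ℝ) ^ n)⁻¹) :
    ‖padicEmbedding q (σ x)‖ ≤ ((q : ℝ) ^ n)⁻¹ := by
  have hq0 : (0 : ℝ) < q := by exact_mod_cast (Fact.out : q.Prime).pos
  have hnq : ‖padicEmbedding q ((q : Qbar) ^ n)‖ = ((q : ℝ) ^ n)⁻¹ := by
    rw [map_pow, map_natCast, norm_pow]
    have : ((q : ℕ) : PadicAlgCl q) = algebraMap ℚ_[q] (PadicAlgCl q) (q : ℚ_[q]) := by simp
    rw [this, PadicAlgCl.norm_extends, Padic.norm_p, inv_pow]
  have hpos : (0 : ℝ) < ((q : ℝ) ^ n)⁻¹ := by positivity
  have key : ∀ y : Qbar, ‖padicEmbedding q y‖ ≤ ((q : ℝ) ^ n)⁻¹ ↔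
      y / (q : Qbar) ^ n ∈ padicPlace q := by
    intro y
    rw [← norm_padicEmbedding_le_one_iff, map_div₀, norm_div, hnq, div_le_one hpos]
  rw [key] at hx ⊢
  have h2 := ((mem_decompositionSubgroup_iff _ σ).1 hσ (x / (q : Qbar) ^ n)).2 hx
  simpa using h2

/-- Every element of the decomposition group fixes the elements of `Qbar ∩ ℚ_[q]`. -/
theorem fixed_of_mem_decomposition {σ : GQ}
    (hσ : σ ∈ (padicPlace q).decompositionSubgroup ℚ) (x : Qbar)
    (hx : padicEmbedding q x ∈ Set.range (algebraMap ℚ_[q] (PadicAlgCl q))) : σ x = x := by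
  obtain ⟨y, hy⟩ := hx
  refine (padicEmbedding q).injective (?_ : padicEmbedding q (σ x) = padicEmbedding q x)
  rw [← sub_eq_zero, ← norm_le_zero_iff]
  have hq1 : (1 : ℝ) < q := by exact_mod_cast (Fact.out : q.Prime).one_lt
  have hlim : Filter.Tendsto (fun n : ℕ => ((q : ℝ) ^ n)⁻¹) Filter.atTop (nhds 0) :=
    tendsto_inv_atTop_zero.comp (tendsto_pow_atTop_atTop_of_one_lt hq1)
  refine ge_of_tendsto' hlim fun n => ?_
  have hpos : (0 : ℝ) < ((q : ℝ) ^ n)⁻¹ := by
    have : (0 : ℝ) < q := by linarith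
    positivity
  obtain ⟨r, hr⟩ := Padic.rat_dense q y hpos
  have h1 : ‖padicEmbedding q (x - (r : Qbar))‖ ≤ ((q : ℝ) ^ n)⁻¹ := by
    have : padicEmbedding q (x - (r : Qbar)) = algebraMap ℚ_[q] (PadicAlgCl q) (y - r) := by
      rw [map_sub, map_sub, hy]; simp
    rw [this, PadicAlgCl.norm_extends]
    exact hr.le
  have h2 := norm_le_of_mem_decomposition q hσ _ n h1
  have h3 : padicEmbedding q (σ x) - padicEmbedding q x =
      padicEmbedding q (σ (x - (r : Qbar))) - padicEmbedding q (x - (r : Qbar)) := by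
    simp
  rw [h3]
  rw [sub_eq_add_neg]
  refine (IsUltrametricDist.norm_add_le_max _ _).trans (max_le h2 ?_)
  rw [norm_neg]
  exact h1

/-- The decomposition group is contained in the closure of the image of the local Galois group. -/
theorem decomposition_le_topologicalClosure_range :
    (padicPlace q).decompositionSubgroup ℚ ≤ (localGaloisToGlobal q).range.topologicalClosure := by
  let H : ClosedSubgroup GQ :=
    ⟨(localGaloisToGlobal q).range.topologicalClosure, Subgroup.isClosed_topologicalClosure _⟩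
  have hH : (IntermediateField.fixedField H.toSubgroup).fixingSubgroup = H.toSubgroup :=
    InfiniteGalois.fixingSubgroup_fixedField H
  intro σ hσ
  show σ ∈ H.toSubgroup
  rw [← hH, IntermediateField.mem_fixingSubgroup_iff]
  intro x hx
  apply fixed_of_mem_decomposition q hσ
  rw [← fixed_by_local_iff]
  intro τ
  rw [IntermediateField.mem_fixedField_iff] at hx
  exact hx _ (Subgroup.le_topologicalClosure _ ⟨τ, rfl⟩)

/-- The closure of the image of the local Galois group is the decomposition group. -/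
theorem topologicalClosure_range_eq :
    (localGaloisToGlobal q).range.topologicalClosure = (padicPlace q).decompositionSubgroup ℚ := by
  apply le_antisymm _ (decomposition_le_topologicalClosure_range q)
  apply Subgroup.topologicalClosure_minimal _ _ (isClosed_decompositionSubgroup _)
  rintro _ ⟨τ, rfl⟩
  exact localGaloisToGlobal_mem_decompositionSubgroup q τ

/-- (D2) For every finite level `F` and every `σ` in the decomposition group there is a local
automorphism `τ` whose image agrees with `σ` modulo the level. -/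
theorem exists_local_mul_mem_fixingSubgroup {σ : GQ}
    (hσ : σ ∈ (padicPlace q).decompositionSubgroup ℚ)
    (F : IntermediateField ℚ Qbar) [FiniteDimensional ℚ F] :
    ∃ τ : Gq, σ⁻¹ * localGaloisToGlobal q τ ∈ F.fixingSubgroup := by
  have h1 : σ ∈ closure ((localGaloisToGlobal q).range : Set GQ) :=
    decomposition_le_topologicalClosure_range q hσ
  rw [mem_closure_iff] at h1
  have hopen : IsOpen ((fun ρ : GQ => σ⁻¹ * ρ) ⁻¹' (F.fixingSubgroup : Set GQ)) :=
    (IntermediateField.fixingSubgroup_isOpen F).preimage (continuous_const_mul σ⁻¹)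
  obtain ⟨ρ, hρ1, ⟨τ, rfl⟩⟩ := h1 _ hopen (by simp [one_mem])
  exact ⟨τ, hρ1⟩

/-- (D2'), pointwise form. -/
theorem exists_local_agree_on {σ : GQ}
    (hσ : σ ∈ (padicPlace q).decompositionSubgroup ℚ)
    (F : IntermediateField ℚ Qbar) [FiniteDimensional ℚ F] :
    ∃ τ : Gq, ∀ x ∈ F, localGaloisToGlobal q τ x = σ x := by
  obtain ⟨τ, hτ⟩ := exists_local_mul_mem_fixingSubgroup q hσ F
  refine ⟨τ, fun x hx => ?_⟩
  rw [IntermediateField.mem_fixingSubgroup_iff] at hτ
  have := hτ x hx
  have h2 : σ ((σ⁻¹ * localGaloisToGlobal q τ) x) = localGaloisToGlobal q τ x := by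
    simp [AlgEquiv.mul_apply]
  rw [← h2]
  exact congrArg σ this

end Fermat.Agent.CFT.Local
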