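/-
S55 / CFT, LOCAL part (helper19).

Formal consequences of density: level-constant cochains on a group `G` mapping to `G_ℚ` with
dense image in a subgroup `D` are the same as level-constant cochains on `D`.
-/
import Mathlib
import Fermat.Prelude.Def_GroupCohomology_ContinuousUnramified
import Fermat.Agent.CFT.Local.Dens

set_option autoImplicit false

namespace Fermat.Agent.CFT.Local

open groupCohomology

local notation "Qbar" => AlgebraicClosure ℚ
local notation "GQ" => (AlgebraicClosure ℚ ≃ₐ[ℚ] AlgebraicClosure ℚ)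

local instance isAlgebraicQbar_dc : Algebra.IsAlgebraic ℚ (AlgebraicClosure ℚ) :=
  AlgebraicClosure.isAlgebraic ℚ
local instance isAlgClosureQbar_dc : IsAlgClosure ℚ (AlgebraicClosure ℚ) :=
  ⟨inferInstance, inferInstance⟩
local instance normalQbar_dc : Normal ℚ (AlgebraicClosure ℚ) :=
  IsAlgClosure.normal ℚ (AlgebraicClosure ℚ)

/-- `r : G →* G_ℚ` has image contained and dense in the subgroup `D`. -/
structure DenseIn {G : Type} [Group G] (r : G →* GQ) (D : Subgroup GQ) : Prop where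
  mem : ∀ g, r g ∈ D
  dense : ∀ σ ∈ D, ∀ F : IntermediateField ℚ Qbar, FiniteDimensional ℚ F →
    ∃ τ : G, σ⁻¹ * r τ ∈ F.fixingSubgroup

/-- Smoothness of a `G_ℚ`-module (the hypothesis `hsm` of S55). -/
def IsSmooth {k : Type} [CommRing k] (M : Rep k GQ) : Prop :=
  ∀ m : M, ∃ F : IntermediateField ℚ Qbar, FiniteDimensional ℚ F ∧
    ∀ s ∈ F.fixingSubgroup, M.ρ s m = m

theorem denseIn_localGaloisToGlobal (q : ℕ) [Fact q.Prime] :
    DenseIn (localGaloisToGlobal q) ((padicPlace q).decompositionSubgroup ℚ) where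
  mem := localGaloisToGlobal_mem_decompositionSubgroup q
  dense _ hσ F _ := exists_local_mul_mem_fixingSubgroup q hσ F

theorem denseIn_subtype (D : Subgroup GQ) : DenseIn D.subtype D where
  mem g := g.2
  dense σ hσ _ _ := ⟨⟨σ, hσ⟩, by simp [one_mem]⟩

/-- Every finite level is contained in a finite normal level. -/
theorem exists_normal_level (F : IntermediateField ℚ Qbar) [FiniteDimensional ℚ F] :
    ∃ F' : IntermediateField ℚ Qbar, FiniteDimensional ℚ F' ∧ F ≤ F' ∧
      F'.fixingSubgroup.Normal := by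
  refine ⟨IntermediateField.normalClosure ℚ F Qbar, inferInstance,
    IntermediateField.le_normalClosure F, ?_⟩
  infer_instance

variable {G : Type} [Group G] {r : G →* GQ} {D : Subgroup GQ}
variable {k : Type} [CommRing k] {M : Rep k GQ}

/-- Degree one: being a coboundary can be tested on a dense subgroup. -/
theorem DenseIn.coboundary_iff (h : DenseIn r D) (hsm : IsSmooth M) {c : GQ → M}
    (hc : IsLevelConstant₁ (MonoidHom.id _) c) (m : M) :
    (∀ τ : G, c (r τ) = M.ρ (r τ) m - m) ↔ ∀ σ ∈ D, c σ = M.ρ σ m - m := by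
  constructor
  · intro H σ hσ
    obtain ⟨F, hF, hcF⟩ := hc
    obtain ⟨F', hF', hmF⟩ := hsm m
    obtain ⟨τ, hτ⟩ := h.dense σ hσ (F ⊔ F') inferInstance
    have h1 : σ * (σ⁻¹ * r τ) = r τ := by group
    have h2 : c (r τ) = c σ := by
      rw [← h1]
      exact hcF σ _ (IntermediateField.fixingSubgroup_antitone le_sup_left hτ)
    have h3 : M.ρ (r τ) m = M.ρ σ m := by
      rw [← h1, map_mul, Module.End.mul_apply,
        hmF _ (IntermediateField.fixingSubgroup_antitone le_sup_right hτ)]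
    rw [← h2, ← h3]
    exact H τ
  · intro H τ
    exact H _ (h.mem τ)

/-- Descent of a level-constant function along `r` (no density needed). -/
theorem exists_descent₁ {X : Type*} {x : G → X} (hx : IsLevelConstant₁ r x) :
    ∃ y : GQ → X, IsLevelConstant₁ (MonoidHom.id _) y ∧ ∀ τ, y (r τ) = x τ := by
  classical
  obtain ⟨F, hF, hxF⟩ := hx
  let y : GQ → X := fun g =>
    if hg : ∃ τ : G, g⁻¹ * r τ ∈ F.fixingSubgroup then x hg.choose else x 1
  have key : ∀ (g : GQ) (τ : G), g⁻¹ * r τ ∈ F.fixingSubgroup → y g = x τ := by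
    intro g τ hτ
    have hg : ∃ τ : G, g⁻¹ * r τ ∈ F.fixingSubgroup := ⟨τ, hτ⟩
    have h1 : y g = x hg.choose := dif_pos hg
    have h2 := hg.choose_spec
    have h3 : r (τ⁻¹ * hg.choose) ∈ F.fixingSubgroup := by
      have : r (τ⁻¹ * hg.choose) = (g⁻¹ * r τ)⁻¹ * (g⁻¹ * r hg.choose) := by
        rw [map_mul, map_inv]; group
      rw [this]
      exact mul_mem (inv_mem hτ) h2
    rw [h1, ← hxF τ _ h3]
    congr 1
    group
  refine ⟨y, ⟨F, hF, ?_⟩, fun τ => key _ τ (by simp [one_mem])⟩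
  intro g s hs
  have hs' : s ∈ F.fixingSubgroup := hs
  by_cases hg : ∃ τ : G, g⁻¹ * r τ ∈ F.fixingSubgroup
  · obtain ⟨τ, hτ⟩ := hg
    rw [key g τ hτ, key (g * s) τ]
    have : (g * s)⁻¹ * r τ = s⁻¹ * (g⁻¹ * r τ) := by group
    rw [this]
    exact mul_mem (inv_mem hs') hτ
  · have hg' : ¬ ∃ τ : G, (g * s)⁻¹ * r τ ∈ F.fixingSubgroup := by
      rintro ⟨τ, hτ⟩
      apply hg
      refine ⟨τ, ?_⟩
      have : g⁻¹ * r τ = s * ((g * s)⁻¹ * r τ) := by group
      rw [this]
      exact mul_mem hs' hτ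
    show y (g * s) = y g
    simp only [y, dif_neg hg, dif_neg hg']

/-- Degree two: being a level-constant coboundary can be tested on a dense subgroup. -/
theorem DenseIn.coboundary₂_iff (h : DenseIn r D) (hsm : IsSmooth M) {f : GQ × GQ → M}
    (hf : IsLevelConstant₂ (MonoidHom.id _) f) :
    (∃ x : G → M, IsLevelConstant₁ r x ∧
      ∀ τ τ' : G, f (r τ, r τ') = M.ρ (r τ) (x τ') - x (τ * τ') + x τ) ↔
    (∃ y : GQ → M, IsLevelConstant₁ (MonoidHom.id _) y ∧
      ∀ σ ∈ D, ∀ σ' ∈ D, f (σ, σ') = M.ρ σ (y σ') - y (σ * σ') + y σ) := by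
  constructor
  · rintro ⟨x, hx, hfx⟩
    obtain ⟨y, hy, hyx⟩ := exists_descent₁ hx
    refine ⟨y, hy, fun σ hσ σ' hσ' => ?_⟩
    obtain ⟨Fy, hFy, hyF⟩ := hy
    obtain ⟨Ff, hFf, hfF⟩ := hf
    obtain ⟨τ', hτ'⟩ := h.dense σ' hσ' (Fy ⊔ Ff) inferInstance
    obtain ⟨Fm, hFm, hmF⟩ := hsm (y σ')
    obtain ⟨N, hN, hle, hnorm⟩ := exists_normal_level (Fy ⊔ Ff ⊔ Fm)
    obtain ⟨τ, hτ⟩ := h.dense σ hσ N hN
    have hτy : σ⁻¹ * r τ ∈ Fy.fixingSubgroup :=
      IntermediateField.fixingSubgroup_antitone ((le_sup_left.trans le_sup_left).trans hle) hτ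
    have hτf : σ⁻¹ * r τ ∈ Ff.fixingSubgroup :=
      IntermediateField.fixingSubgroup_antitone ((le_sup_right.trans le_sup_left).trans hle) hτ
    have hτm : σ⁻¹ * r τ ∈ Fm.fixingSubgroup :=
      IntermediateField.fixingSubgroup_antitone (le_sup_right.trans hle) hτ
    have hτ'y : σ'⁻¹ * r τ' ∈ Fy.fixingSubgroup :=
      IntermediateField.fixingSubgroup_antitone le_sup_left hτ'
    have hτ'f : σ'⁻¹ * r τ' ∈ Ff.fixingSubgroup :=
      IntermediateField.fixingSubgroup_antitone le_sup_right hτ'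
    have e1 : σ * (σ⁻¹ * r τ) = r τ := by group
    have e2 : σ' * (σ'⁻¹ * r τ') = r τ' := by group
    have a1 : f (r τ, r τ') = f (σ, σ') := by
      rw [← e1, ← e2]; exact hfF σ σ' _ _ hτf hτ'f
    have a2 : y (r τ) = y σ := by
      rw [← e1]; exact hyF σ _ hτy
    have a3 : y (r τ') = y σ' := by
      rw [← e2]; exact hyF σ' _ hτ'y
    have a4 : M.ρ (r τ) (y σ') = M.ρ σ (y σ') := by
      rw [← e1, map_mul, Module.End.mul_apply, hmF _ hτm]
    have a5 : y (r (τ * τ')) = y (σ * σ') := by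
      have e3 : r (τ * τ') = (σ * σ') * ((σ'⁻¹ * (σ⁻¹ * r τ) * σ'⁻¹⁻¹) * (σ'⁻¹ * r τ')) := by
        rw [map_mul]; group
      rw [e3]
      refine hyF _ _ (mul_mem ?_ hτ'y)
      exact IntermediateField.fixingSubgroup_antitone ((le_sup_left.trans le_sup_left).trans hle)
        (hnorm.conj_mem _ hτ _)
    rw [← a1, hfx, ← hyx, ← hyx, ← hyx, a2, a3, a4, a5]
  · rintro ⟨y, hy, hfy⟩
    refine ⟨y ∘ r, IsLevelConstant₁.precomp r (fun _ => rfl) hy, fun τ τ' => ?_⟩
    rw [hfy _ (h.mem τ) _ (h.mem τ')]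
    simp

end Fermat.Agent.CFT.Local
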