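/-
S55 / CFT (helper19).

Elementary characterisations of the frozen `sha₁` and `sha₂`: the local conditions at the primes
of `S` are expressed on the decomposition subgroups `D_q ≤ G_ℚ`, and the archimedean condition
disappears for `p` odd.
-/
import Mathlib
import Fermat.Prelude.Def_GroupCohomology_ContinuousUnramified
import Fermat.Agent.CFT.Local.DensCoh

set_option autoImplicit false

namespace Fermat.Agent.CFT.Local

open groupCohomology ExtCitation

local notation "Qbar" => AlgebraicClosure ℚ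
local notation "GQ" => (AlgebraicClosure ℚ ≃ₐ[ℚ] AlgebraicClosure ℚ)

local instance isAlgebraicQbar_si : Algebra.IsAlgebraic ℚ (AlgebraicClosure ℚ) :=
  AlgebraicClosure.isAlgebraic ℚ

/-! ### Finite subgroups -/

/-- A finite subgroup of `G_ℚ` meets some finite level trivially. -/
theorem exists_level_of_finite (D : Subgroup GQ) [Finite D] :
    ∃ F : IntermediateField ℚ Qbar, FiniteDimensional ℚ F ∧
      ∀ s ∈ D, s ∈ F.fixingSubgroup → s = 1 := by
  classical
  have hex : ∀ g : GQ, ∃ a : Qbar, g ≠ 1 → g a ≠ a := by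
    intro g
    by_cases hg : g = 1
    · exact ⟨0, fun h => absurd hg h⟩
    · have : ∃ a, g a ≠ a := by
        by_contra hcon
        push Not at hcon
        exact hg (AlgEquiv.ext hcon)
      obtain ⟨a, ha⟩ := this
      exact ⟨a, fun _ => ha⟩
  choose a ha using hex
  have hfin : (a '' (D : Set GQ)).Finite := (Set.toFinite (D : Set GQ)).image a
  refine ⟨IntermediateField.adjoin ℚ (a '' (D : Set GQ)), ?_, ?_⟩
  · have : Finite (a '' (D : Set GQ)) := hfin
    exact IntermediateField.finiteDimensional_adjoin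
      (fun x _ => Algebra.IsIntegral.isIntegral x)
  · intro s hs hsF
    by_contra hne
    apply ha s hne
    rw [IntermediateField.mem_fixingSubgroup_iff] at hsF
    exact hsF _ (IntermediateField.subset_adjoin _ _ ⟨s, hs, rfl⟩)

/-- Every function on a finite subgroup is level-constant. -/
theorem isLevelConstant₁_of_finite (D : Subgroup GQ) [Finite D] {X : Type*} (x : D → X) :
    IsLevelConstant₁ D.subtype x := by
  obtain ⟨F, hF, h⟩ := exists_level_of_finite D
  refine ⟨F, hF, fun g s hs => ?_⟩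
  have : s = 1 := Subtype.ext (h s.1 s.2 hs)
  rw [this, mul_one]

/-- Averaging in degree one. -/
theorem exists_coboundary₁_of_finite {H : Type} [Group H] [Finite H] {k : Type} [CommRing k]
    {V : Type} [AddCommGroup V] [Module k V] (ρ : Representation k H V)
    (hinv : IsUnit (Nat.card H : k)) (c : H → V)
    (hc : ∀ g h, c (g * h) = ρ g (c h) + c g) : ∃ m : V, ∀ g, c g = ρ g m - m := by
  classical
  have := Fintype.ofFinite H
  obtain ⟨u, hu⟩ := hinv
  refine ⟨-((↑u⁻¹ : k) • ∑ h, c h), fun g => ?_⟩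
  have h1 : ∑ h, c (g * h) = ∑ h, c h := Fintype.sum_equiv (Equiv.mulLeft g) _ _ (fun _ => rfl)
  have h2 : ∑ h, c (g * h) = ρ g (∑ h, c h) + (Nat.card H : k) • c g := by
    simp only [hc, Finset.sum_add_distrib, map_sum, Finset.sum_const, Finset.card_univ,
      Nat.card_eq_fintype_card, Nat.cast_smul_eq_nsmul]
  have h3 : (u : k) • c g = ∑ h, c h - ρ g (∑ h, c h) := by
    rw [hu, eq_sub_iff_add_eq, add_comm, ← h2, h1]
  have h4 : c g = (↑u⁻¹ : k) • ((u : k) • c g) := by
    rw [smul_smul, Units.inv_mul, one_smul]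
  rw [h4, h3, map_neg, map_smul, smul_sub]
  abel

/-- Averaging in degree two. -/
theorem exists_coboundary₂_of_finite {H : Type} [Group H] [Finite H] {k : Type} [CommRing k]
    {V : Type} [AddCommGroup V] [Module k V] (ρ : Representation k H V)
    (hinv : IsUnit (Nat.card H : k)) (f : H × H → V)
    (hf : ∀ g h j, f (g * h, j) + f (g, h) = ρ g (f (h, j)) + f (g, h * j)) :
    ∃ x : H → V, ∀ g h, f (g, h) = ρ g (x h) - x (g * h) + x g := by
  classical
  have := Fintype.ofFinite H
  obtain ⟨u, hu⟩ := hinv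
  refine ⟨fun g => (↑u⁻¹ : k) • ∑ j, f (g, j), fun g h => ?_⟩
  have h1 : ∑ j, f (g, h * j) = ∑ j, f (g, j) :=
    Fintype.sum_equiv (Equiv.mulLeft h) _ _ (fun _ => rfl)
  have h2 : ∑ j, (f (g * h, j) + f (g, h)) = ∑ j, (ρ g (f (h, j)) + f (g, h * j)) :=
    Finset.sum_congr rfl fun j _ => hf g h j
  have h3 : ∑ j, f (g * h, j) + (u : k) • f (g, h) = ρ g (∑ j, f (h, j)) + ∑ j, f (g, j) := by
    rw [← h1, map_sum, ← Finset.sum_add_distrib, ← h2, Finset.sum_add_distrib, hu]
    simp only [Finset.sum_const, Finset.card_univ, Nat.card_eq_fintype_card,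
      Nat.cast_smul_eq_nsmul]
  have h4 : (u : k) • f (g, h) = ρ g (∑ j, f (h, j)) - ∑ j, f (g * h, j) + ∑ j, f (g, j) := by
    rw [sub_add_eq_add_sub, ← h3]; abel
  have h5 : f (g, h) = (↑u⁻¹ : k) • ((u : k) • f (g, h)) := by
    rw [smul_smul, Units.inv_mul, one_smul]
  rw [h5, h4, map_smul, smul_add, smul_sub]

/-! ### The archimedean place -/

theorem card_archimedeanDecomposition_dvd : Nat.card archimedeanDecomposition ∣ 2 := by
  rw [archimedeanDecomposition, Nat.card_zpowers]
  exact orderOf_dvd_of_pow_eq_one complexConjugation_sq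

instance finite_archimedeanDecomposition : Finite archimedeanDecomposition := by
  apply Nat.finite_of_card_ne_zero
  intro h
  have := card_archimedeanDecomposition_dvd
  rw [h] at this
  simp at this

theorem isUnit_card_archimedeanDecomposition {p : ℕ} [Fact p.Prime] (hp2 : p ≠ 2) :
    IsUnit (Nat.card archimedeanDecomposition : ZMod p) := by
  rw [ZMod.isUnit_iff_coprime]
  apply Nat.Coprime.coprime_dvd_left card_archimedeanDecomposition_dvd
  exact (Nat.coprime_primes Nat.prime_two Fact.out).2 (Ne.symm hp2)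

/-! ### Unfolding the frozen localisation maps -/

section unfold

open CategoryTheory

variable {k : Type} [CommRing k] (A : Rep k GQ) {H : Type} [Group H] (f : H →* GQ)

theorem map_H1π_eq_zero_iff (c : cocycles₁ A) :
    (groupCohomology.map f (𝟙 (Rep.res f A)) 1).hom ((H1π A).hom c) = 0 ↔
      ∃ m : A, ∀ τ : H, c (f τ) = A.ρ (f τ) m - m := by
  have h1 : (groupCohomology.map f (𝟙 (Rep.res f A)) 1).hom ((H1π A).hom c) =
      (H1π (Rep.res f A)).hom ((mapCocycles₁ f (𝟙 (Rep.res f A))).hom c) :=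
    H1π_comp_map_apply f (𝟙 (Rep.res f A)) c
  rw [h1]
  erw [H1π_eq_zero_iff]
  constructor
  · rintro ⟨m, hm⟩
    refine ⟨m, fun τ => ?_⟩
    have := congrFun hm τ
    exact this.symm
  · rintro ⟨m, hm⟩
    refine ⟨m, funext fun τ => ?_⟩
    exact (hm τ).symm

theorem locRes₂S_mk_eq_zero_iff (S : Finset Nat.Primes) (c : levelCocyclesS₂ S A) :
    locRes₂S S A f (continuousH2Sπ S A c) = 0 ↔
      ∃ x : H → A, IsLevelConstant₁ f x ∧
        ∀ τ τ' : H, (c : GQ × GQ → A) (f τ, f τ') = A.ρ (f τ) (x τ') - x (τ * τ') + x τ := by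
  have h1 : locRes₂S S A f (continuousH2Sπ S A c) =
      continuousH2π f (Rep.res f A)
        (levelCocycles₂Map (rH := MonoidHom.id _) (rG := f) f (fun _ => rfl)
          (LinearMap.id : A →ₗ[k] Rep.res f A) (fun _ _ => rfl)
          (levelCocyclesS₂ToLevelCocycles₂ S A c)) := rfl
  rw [h1, continuousH2π_eq_zero_iff, mem_levelCoboundaries₂_iff]
  constructor
  · rintro ⟨x, hx, hxc⟩
    refine ⟨x, hx, fun τ τ' => ?_⟩
    have := congrFun hxc (τ, τ')
    rw [d₁₂_hom_apply] at this
    exact this.symm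
  · rintro ⟨x, hx, hxc⟩
    refine ⟨x, hx, funext fun ⟨τ, τ'⟩ => ?_⟩
    rw [d₁₂_hom_apply]
    exact (hxc τ τ').symm

end unfold

/-! ### The characterisations -/

theorem denseIn_primeLocalToGlobal (q : Nat.Primes) :
    DenseIn (primeLocalToGlobal q) ((primeLocalPlace q).decompositionSubgroup ℚ) :=
  letI : Fact (q : ℕ).Prime := ⟨q.2⟩
  denseIn_localGaloisToGlobal (q : ℕ)

variable {p : ℕ} [Fact p.Prime]

/-- Elementary description of the frozen `sha₁`. -/
theorem mem_sha₁_iff (hp2 : p ≠ 2) (S : Finset Nat.Primes) (A : Rep (ZMod p) GQ)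
    (hsm : IsSmooth A) (x : H1 A) :
    x ∈ sha₁ S A ↔ ∃ c : cocycles₁ A, IsLevelConstantS₁ S c ∧ (H1π A).hom c = x ∧
      ∀ q ∈ S, ∃ m : A, ∀ σ ∈ (primeLocalPlace q).decompositionSubgroup ℚ,
        c σ = A.ρ σ m - m := by
  have key : ∀ c : cocycles₁ A, IsLevelConstantS₁ S c →
      ((H1π A).hom c ∈ LinearMap.ker (locTotal (extArithLoc S) A) ↔
        ∀ q ∈ S, ∃ m : A, ∀ σ ∈ (primeLocalPlace q).decompositionSubgroup ℚ,
          c σ = A.ρ σ m - m) := by
    intro c hc
    rw [LinearMap.mem_ker]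
    constructor
    · intro h q hq
      have h1 : (groupCohomology.map (primeLocalToGlobal q)
          (CategoryTheory.CategoryStruct.id (Rep.res (primeLocalToGlobal q) A)) 1).hom
          ((H1π A).hom c) = 0 := congrFun h (Sum.inr ⟨q, hq⟩)
      obtain ⟨m, hm⟩ := (map_H1π_eq_zero_iff A (primeLocalToGlobal q) c).1 h1
      exact ⟨m, ((denseIn_primeLocalToGlobal q).coboundary_iff hsm hc.isLevelConstant₁ m).1 hm⟩
    · intro h
      funext v
      rw [locTotal_apply]
      rcases v with v | ⟨q, hq⟩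
      · refine (map_H1π_eq_zero_iff A archimedeanLoc c).2 ?_
        obtain ⟨m, hm⟩ := exists_coboundary₁_of_finite
          (A.ρ.comp archimedeanLoc) (isUnit_card_archimedeanDecomposition hp2)
          (fun τ => c (archimedeanLoc τ)) (fun g h => by
            rw [map_mul]
            exact (mem_cocycles₁_iff c).1 c.2 _ _)
        exact ⟨m, hm⟩
      · refine (map_H1π_eq_zero_iff A (primeLocalToGlobal q) c).2 ?_
        obtain ⟨m, hm⟩ := h q hq
        exact ⟨m, ((denseIn_primeLocalToGlobal q).coboundary_iff hsm hc.isLevelConstant₁ m).2 hm⟩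
  constructor
  · rintro ⟨h1, h2⟩
    obtain ⟨c, hc, rfl⟩ := (mem_continuousH1S_iff S A x).1 h1
    exact ⟨c, hc, rfl, (key c hc).1 h2⟩
  · rintro ⟨c, hc, rfl, h⟩
    exact ⟨(mem_continuousH1S_iff S A _).2 ⟨c, hc, rfl⟩, (key c hc).2 h⟩

/-- Elementary description of the frozen `sha₂`. -/
theorem mk_mem_sha₂_iff (hp2 : p ≠ 2) (S : Finset Nat.Primes) (M : Rep (ZMod p) GQ)
    (hsm : IsSmooth M) (c : levelCocyclesS₂ S M) :
    continuousH2Sπ S M c ∈ sha₂ S M ↔
      ∀ q ∈ S, ∃ y : GQ → M, IsLevelConstant₁ (MonoidHom.id _) y ∧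
        ∀ σ ∈ (primeLocalPlace q).decompositionSubgroup ℚ,
        ∀ σ' ∈ (primeLocalPlace q).decompositionSubgroup ℚ,
          (c : GQ × GQ → M) (σ, σ') = M.ρ σ (y σ') - y (σ * σ') + y σ := by
  have hlc : IsLevelConstant₂ (MonoidHom.id _) (c : GQ × GQ → M) := c.2.2.isLevelConstant₂
  rw [sha₂, LinearMap.mem_ker]
  constructor
  · intro h q hq
    have h1 : locRes₂S S M (primeLocalToGlobal q) (continuousH2Sπ S M c) = 0 :=
      congrFun h (Sum.inr ⟨q, hq⟩)
    exact ((denseIn_primeLocalToGlobal q).coboundary₂_iff hsm hlc).1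
      ((locRes₂S_mk_eq_zero_iff M (primeLocalToGlobal q) S c).1 h1)
  · intro h
    funext v
    rw [locTotal₂S_apply]
    rcases v with v | ⟨q, hq⟩
    · refine (locRes₂S_mk_eq_zero_iff M archimedeanLoc S c).2 ?_
      obtain ⟨x, hx⟩ := exists_coboundary₂_of_finite
        (M.ρ.comp archimedeanLoc) (isUnit_card_archimedeanDecomposition hp2)
        (fun τ => (c : GQ × GQ → M) (archimedeanLoc τ.1, archimedeanLoc τ.2)) (fun g h j => by
          simp only [map_mul]
          exact (mem_cocycles₂_iff (c : GQ × GQ → M)).1 c.2.1 _ _ _)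
      exact ⟨x, isLevelConstant₁_of_finite _ x, hx⟩
    · exact (locRes₂S_mk_eq_zero_iff M (primeLocalToGlobal q) S c).2
        (((denseIn_primeLocalToGlobal q).coboundary₂_iff hsm hlc).2 (h q hq))

end Fermat.Agent.CFT.Local
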